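import Mathlib
import Fermat.Agent.DS.C.Good
import Fermat.Agent.DS.C.V.Main
import Fermat.Agent.S18.Core.Defs
import Fermat.Agent.S18.Core.Descend
import Fermat.Agent.S18.Core.DescentBasic

/-!
# Program DS, package (C), row C4-D : descent from `ℚ̄` to a number field at level `(M, P)`

The `Γ₁` analogue of `S18/Core/{Descend,DescentBasic}.lean` (package D of S18); the generic leaves
(`s18d_isDVR`, `s18d_res_eq_iff`, `s18dd_exists_coeff`, `s18dd_exists_root`, …) are imported.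

* `dscd_coeffMap_mem`  : base change of `dscFieldC K M P` along a field homomorphism;
* `dscd_bar_eq`        : `dscFieldBar M P = dscFieldC ℚ̄ M P`;
* `dscd_up_mem`        : `F_E(M,P) → F_ℚ̄(M,P)`;
* `dscd_exists_model`, `dscd_model_mono`, `dscd_model_binary` : every element of `F_ℚ̄(M,P)` is
  defined over a number field;
* `dscd_cusp_place`    : the cusp `∞` of `F_ℚ̄(M,P)`;
* `dscd_descend`       : descent of the data of the core claim (`= s18dd_descend`).
-/

set_option autoImplicit false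
set_option linter.unusedSectionVars false
set_option linter.unusedVariables false
set_option linter.style.haveILetI false
set_option synthInstance.maxHeartbeats 400000

noncomputable section

namespace Fermat.Agent.DS

open ModularCurve AlgebraicCurve IsLocalRing Polynomial IntermediateField Fermat.Agent.S18

local notation "Qb" => AlgebraicClosure ℚ

section BaseChange

variable {K K' : Type*} [Field K] [Field K']

/-- (D′-map) base change of the function field of level `(M, P)` along a field homomorphism. -/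
theorem dscd_coeffMap_mem (φ : K →+* K') (M P : ℕ) [NeZero M] {x : LaurentSeries K}
    (hx : x ∈ dscFieldC K M P) : coeffMap φ x ∈ dscFieldC K' M P := by
  unfold dscFieldC at hx
  induction hx using IntermediateField.adjoin_induction with
  | mem x hx =>
    apply IntermediateField.subset_adjoin
    rw [← dscv_image_genInt K' φ M P]
    rw [← dscv_genInt_field] at hx
    exact ⟨x, hx, rfl⟩
  | algebraMap a =>
    rw [s18dd_coeffMap_algebraMap]
    exact IntermediateField.algebraMap_mem _ _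
  | add x y _ _ hx hy => rw [map_add]; exact add_mem hx hy
  | inv x _ hx => rw [map_inv₀]; exact inv_mem hx
  | mul x y _ _ hx hy => rw [map_mul]; exact mul_mem hx hy

end BaseChange

section UpMem

variable (E : IntermediateField ℚ Qb)

/-- the Prelude-style field over `ℚ̄` is the field `dscFieldC ℚ̄ M P`. -/
theorem dscd_bar_eq (M P : ℕ) [NeZero M] : dscFieldBar M P = dscFieldC Qb M P :=
  dscv_fieldBar_eq M P

/-- (D2) base change of the function field along `E ⊆ ℚ̄`. -/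
theorem dscd_up_mem (M P : ℕ) [NeZero M] (x : LaurentSeries E) (hx : x ∈ dscFieldC E M P) :
    s18dUp E x ∈ dscFieldBar M P := by
  rw [dscd_bar_eq]
  exact dscd_coeffMap_mem _ M P hx

end UpMem

section Models

variable (M P : ℕ) [NeZero M]

/-- `x ∈ ℚ̄((q))` has a model over the number field `E`. -/
def DscdModel (x : LaurentSeries Qb) : Prop :=
  ∃ (E : IntermediateField ℚ Qb) (_ : FiniteDimensional ℚ E)
    (z : LaurentSeries E), z ∈ dscFieldC E M P ∧ coeffMap (algebraMap E Qb) z = x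

/-- enlarging the field of definition. -/
theorem dscd_model_mono {E E' : IntermediateField ℚ Qb} (h : E ≤ E')
    (z : LaurentSeries E) (hz : z ∈ dscFieldC E M P) :
    coeffMap (IntermediateField.inclusion h).toRingHom z ∈ dscFieldC E' M P ∧
      coeffMap (algebraMap E' Qb) (coeffMap (IntermediateField.inclusion h).toRingHom z) =
        coeffMap (algebraMap E Qb) z :=
  ⟨dscd_coeffMap_mem _ M P hz, by rw [coeffMap_coeffMap, s18dd_inclusion_comp]⟩

theorem dscd_model_binary {x y : LaurentSeries Qb}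
    (hx : DscdModel M P x) (hy : DscdModel M P y) :
    ∃ (E : IntermediateField ℚ Qb) (_ : FiniteDimensional ℚ E)
      (z w : LaurentSeries E), z ∈ dscFieldC E M P ∧ w ∈ dscFieldC E M P ∧
        coeffMap (algebraMap E Qb) z = x ∧ coeffMap (algebraMap E Qb) w = y := by
  obtain ⟨E₁, hfd₁, z₁, hz₁, hzx⟩ := hx
  obtain ⟨E₂, hfd₂, z₂, hz₂, hzy⟩ := hy
  haveI := hfd₁
  haveI := hfd₂
  obtain ⟨h1, h2⟩ := dscd_model_mono M P (le_sup_left : E₁ ≤ E₁ ⊔ E₂) z₁ hz₁
  obtain ⟨h3, h4⟩ := dscd_model_mono M P (le_sup_right : E₂ ≤ E₁ ⊔ E₂) z₂ hz₂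
  exact ⟨E₁ ⊔ E₂, inferInstance, _, _, h1, h3, h2.trans hzx, h4.trans hzy⟩

/-- (D′-model) every element of `dscFieldBar M P` is defined over a number field. -/
theorem dscd_exists_model (x : LaurentSeries Qb) (hx : x ∈ dscFieldBar M P) :
    ∃ (E : IntermediateField ℚ Qb) (_ : FiniteDimensional ℚ E)
      (z : LaurentSeries E), z ∈ dscFieldC E M P ∧ coeffMap (algebraMap E Qb) z = x := by
  show DscdModel M P x
  rw [mem_laurentBaseChange_iff] at hx
  induction hx using Subfield.closure_induction with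
  | mem y hy =>
      rcases hy with ⟨c, rfl⟩ | ⟨w, hw, rfl⟩
      · haveI : Algebra.IsAlgebraic ℚ Qb := AlgebraicClosure.isAlgebraic ℚ
        have hc : IsIntegral ℚ c := Algebra.IsIntegral.isIntegral c
        refine ⟨ℚ⟮c⟯, IntermediateField.adjoin.finiteDimensional hc,
          algebraMap _ _ (⟨c, IntermediateField.mem_adjoin_simple_self ℚ c⟩ : ℚ⟮c⟯),
          IntermediateField.algebraMap_mem _ _, ?_⟩
        rw [s18dd_coeffMap_algebraMap]
        rfl
      · refine ⟨⊥, inferInstance, coeffMap (algebraMap ℚ _) w,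
          dscd_coeffMap_mem _ M P hw, ?_⟩
        rw [coeffMap_coeffMap]
        exact coeffMap_congr (RingHom.ext fun r => rfl) w
  | one =>
      exact ⟨⊥, inferInstance, 1, one_mem _, map_one _⟩
  | add x y _ _ hx hy =>
      obtain ⟨E, hfd, z, w, hz, hw, rfl, rfl⟩ := dscd_model_binary M P hx hy
      exact ⟨E, hfd, z + w, add_mem hz hw, map_add _ _ _⟩
  | neg x _ hx =>
      obtain ⟨E, hfd, z, hz, rfl⟩ := hx
      exact ⟨E, hfd, -z, neg_mem hz, map_neg _ _⟩
  | inv x _ hx =>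
      obtain ⟨E, hfd, z, hz, rfl⟩ := hx
      exact ⟨E, hfd, z⁻¹, inv_mem hz, map_inv₀ _ _⟩
  | mul x y _ _ hx hy =>
      obtain ⟨E, hfd, z, w, hz, hw, rfl, rfl⟩ := dscd_model_binary M P hx hy
      exact ⟨E, hfd, z * w, mul_mem hz hw, map_mul _ _ _⟩

end Models

section Cusp

/-- the `q`-adic valuation is a place of every intermediate field of `ℚ̄((q))` containing `j`,
with `ord = q`-order (generic form of `s18db_cusp_place`). -/
theorem dscd_cusp_place_generic (F : IntermediateField Qb (LaurentSeries Qb))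
    (hjF : jqModC Qb ∈ F) :
    ∃ Q : Place Qb F, ∀ x : F, x ≠ 0 → Q.ord x = (x : LaurentSeries Qb).order := by
  let v : Valuation F (WithZero (Multiplicative ℤ)) :=
    (Valued.v : Valuation (LaurentSeries Qb) (WithZero (Multiplicative ℤ))).comap
      (algebraMap F (LaurentSeries Qb))
  have hv : ∀ x : F, x ≠ 0 → v x = WithZero.exp (-(x : LaurentSeries Qb).order) := by
    intro x hx
    have hx' : (x : LaurentSeries Qb) ≠ 0 := fun h => hx (Subtype.ext h)
    exact s18db_valuation_eq hx'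
  have hk : ∀ a : Qb, v (algebraMap _ F a) ≤ 1 := by
    intro a
    rcases eq_or_ne a 0 with rfl | ha
    · simp
    · rw [hv _ (by simpa using ha)]
      change WithZero.exp (-(algebraMap Qb (LaurentSeries Qb) a).order) ≤ 1
      rw [s18db_order_algebraMap a ha, neg_zero, WithZero.exp_zero]
  let j : F := ⟨jqModC Qb, hjF⟩
  have hj0 : j ≠ 0 := by
    intro h
    exact jqModC_ne_zero_of_nontrivial Qb (congrArg Subtype.val h)
  have hvj : v j⁻¹ = WithZero.exp (-1 : ℤ) := by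
    rw [hv _ (inv_ne_zero hj0)]
    change WithZero.exp (-(jqModC Qb)⁻¹.order) = _
    rw [s18db_order_inv (jqModC_ne_zero_of_nontrivial _), s18db_order_jqModC, neg_neg]
  have hnt : ∃ x : F, x ≠ 0 ∧ v x ≠ 1 := by
    refine ⟨j⁻¹, inv_ne_zero hj0, ?_⟩
    rw [hvj, ← WithZero.exp_zero, Ne, WithZero.exp_inj]
    omega
  refine ⟨Fermat.Agent.S24.placeOfValuation v hk hnt, fun x hx => ?_⟩
  rw [Fermat.Agent.S24.ord_placeOfValuation_of_exists v hk hnt ⟨j⁻¹, hvj⟩ x hx, hv x hx,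
    WithZero.log_exp, neg_neg]

/-- `j ∈ dscFieldBar M P`. -/
theorem dscd_jq_mem_bar (M P : ℕ) [NeZero M] [NeZero P] : jqModC Qb ∈ dscFieldBar M P := by
  rw [dscd_bar_eq]
  exact dscv_jq_mem Qb M P

/-- (D4) the cusp `∞`: the `q`-adic order is the order at a place of `F_ℚ̄(M,P)`. -/
theorem dscd_cusp_place (M P : ℕ) [NeZero M] [NeZero P] :
    ∃ Q : Place Qb (dscFieldBar M P),
      ∀ x : dscFieldBar M P, x ≠ 0 → Q.ord x = (x : LaurentSeries Qb).order :=
  dscd_cusp_place_generic _ (dscd_jq_mem_bar M P)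

end Cusp

section Main

variable (A : ValuationSubring Qb)

/-- (D5) DESCENT OF THE DATA TO A NUMBER FIELD (`= s18dd_descend` at level `(M, P)`). -/
theorem dscd_descend (M P : ℕ) [NeZero M] (n : ℕ) (hn : 0 < n) (p : ℕ) (hp : p.Prime)
    (u₁ u₂ : LaurentSeries A) (h₁ : DscGood M P A u₁) (h₂ : DscGood M P A u₂) (hu₂ : u₂ ≠ 0)
    (hord : (p : ℤ) ∣ (coeffMap A.subtype u₁).order - (coeffMap A.subtype u₂).order) :
    ∃ (E : IntermediateField ℚ Qb) (_ : FiniteDimensional ℚ E)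
      (ζ : E) (_ : IsPrimitiveRoot ζ n)
      (v₁ v₂ : LaurentSeries (s18dVal A E)) (y : LaurentSeries E),
      coeffMap (s18dIncl A E) v₁ = u₁ ∧ coeffMap (s18dIncl A E) v₂ = u₂ ∧
      s18vIncl (s18dVal A E) E v₁ ∈ dscFieldC E M P ∧
      s18vIncl (s18dVal A E) E v₂ ∈ dscFieldC E M P ∧
      y ^ p * s18vIncl (s18dVal A E) E v₂ = s18vIncl (s18dVal A E) E v₁ := by
  -- roots upstairs
  obtain ⟨ζ₀, hζ₀⟩ := s18dd_exists_primitiveRoot n hn
  obtain ⟨c₀, hc₀⟩ := IsAlgClosed.exists_pow_nat_eq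
    ((coeffMap A.subtype u₁).leadingCoeff / (coeffMap A.subtype u₂).leadingCoeff) hp.pos
  -- models
  obtain ⟨E₀, hfd₀, z₁, z₂, hz₁, hz₂, hzu₁, hzu₂⟩ :=
    dscd_model_binary M P (dscd_exists_model M P _ h₁.1) (dscd_exists_model M P _ h₂.1)
  haveI := hfd₀
  haveI := s18dd_finiteDimensional_adjoin ζ₀
  haveI := s18dd_finiteDimensional_adjoin c₀
  -- the field
  have hE₀ : E₀ ≤ E₀ ⊔ ℚ⟮ζ₀⟯ ⊔ ℚ⟮c₀⟯ := le_sup_left.trans le_sup_left
  have hζE : ζ₀ ∈ E₀ ⊔ ℚ⟮ζ₀⟯ ⊔ ℚ⟮c₀⟯ :=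
    (le_sup_right.trans le_sup_left : ℚ⟮ζ₀⟯ ≤ E₀ ⊔ ℚ⟮ζ₀⟯ ⊔ ℚ⟮c₀⟯)
      (IntermediateField.mem_adjoin_simple_self ℚ ζ₀)
  have hcE : c₀ ∈ E₀ ⊔ ℚ⟮ζ₀⟯ ⊔ ℚ⟮c₀⟯ :=
    (le_sup_right : ℚ⟮c₀⟯ ≤ E₀ ⊔ ℚ⟮ζ₀⟯ ⊔ ℚ⟮c₀⟯) (IntermediateField.mem_adjoin_simple_self ℚ c₀)
  obtain ⟨hx₁, hxu₁⟩ := dscd_model_mono M P hE₀ z₁ hz₁
  obtain ⟨hx₂, hxu₂⟩ := dscd_model_mono M P hE₀ z₂ hz₂
  rw [hzu₁] at hxu₁
  rw [hzu₂] at hxu₂
  generalize hE : E₀ ⊔ ℚ⟮ζ₀⟯ ⊔ ℚ⟮c₀⟯ = E at hE₀ hζE hcE hx₁ hx₂ hxu₁ hxu₂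
  have hfdE : FiniteDimensional ℚ E := by rw [← hE]; infer_instance
  generalize coeffMap (IntermediateField.inclusion hE₀).toRingHom z₁ = x₁ at hx₁ hxu₁
  generalize coeffMap (IntermediateField.inclusion hE₀).toRingHom z₂ = x₂ at hx₂ hxu₂
  -- coefficients
  obtain ⟨v₁, hv₁u, hv₁x⟩ := s18dd_exists_coeff u₁ x₁ hxu₁
  obtain ⟨v₂, hv₂u, hv₂x⟩ := s18dd_exists_coeff u₂ x₂ hxu₂
  have hζ : IsPrimitiveRoot (⟨ζ₀, hζE⟩ : E) n :=
    IsPrimitiveRoot.of_map_of_injective (f := algebraMap E Qb) hζ₀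
      (algebraMap E Qb).injective
  have hx₂0 : x₂ ≠ 0 := by
    rintro rfl
    apply hu₂
    have h3 : coeffMap A.subtype u₂ = 0 := by rw [← hxu₂, map_zero]
    ext k
    have := congrArg (fun s => s.coeff k) h3
    simpa using this
  -- the root
  have hy : ∃ y : LaurentSeries E, y ^ p * x₂ = x₁ := by
    by_cases hx₁0 : x₁ = 0
    · exact ⟨0, by rw [hx₁0, zero_pow hp.ne_zero, zero_mul]⟩
    have hf0 : x₁ / x₂ ≠ 0 := div_ne_zero hx₁0 hx₂0
    have hmul : x₁ / x₂ * x₂ = x₁ := div_mul_cancel₀ _ hx₂0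
    have hordf : (x₁ / x₂).order = x₁.order - x₂.order := by
      have := HahnSeries.order_mul hf0 hx₂0
      rw [hmul] at this
      omega
    obtain ⟨k, hk⟩ := hord
    rw [← hxu₁, ← hxu₂, s18dd_order_coeffMap, s18dd_order_coeffMap] at hk
    have hlead : (x₁ / x₂).leadingCoeff * x₂.leadingCoeff = x₁.leadingCoeff := by
      rw [← HahnSeries.leadingCoeff_mul, hmul]
    have hx₂l : x₂.leadingCoeff ≠ 0 := mt HahnSeries.leadingCoeff_eq_zero.mp hx₂0
    have hc : (⟨c₀, hcE⟩ : E) ^ p = (x₁ / x₂).coeff (x₁ / x₂).order := by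
      rw [← HahnSeries.leadingCoeff_eq]
      apply (algebraMap E Qb).injective
      rw [map_pow]
      change c₀ ^ p = _
      rw [hc₀, ← hxu₁, ← hxu₂, s18dd_leadingCoeff_coeffMap, s18dd_leadingCoeff_coeffMap, ← hlead,
        map_mul, mul_div_assoc, div_self, mul_one]
      rwa [Ne, map_eq_zero_iff _ (algebraMap E Qb).injective]
    obtain ⟨y, hy⟩ := s18dd_exists_root p hp.ne_zero (Nat.cast_ne_zero.mpr hp.ne_zero)
      (x₁ / x₂) hf0 k (by rw [hordf, hk]) ⟨c₀, hcE⟩ hc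
    exact ⟨y, by rw [hy, hmul]⟩
  obtain ⟨y, hy⟩ := hy
  refine ⟨E, hfdE, ⟨ζ₀, hζE⟩, hζ, v₁, v₂, y, hv₁u, hv₂u, ?_, ?_, ?_⟩
  · show s18vIncl (s18ddVal A E) E v₁ ∈ dscFieldC E M P
    rw [hv₁x]; exact hx₁
  · show s18vIncl (s18ddVal A E) E v₂ ∈ dscFieldC E M P
    rw [hv₂x]; exact hx₂
  · show y ^ p * s18vIncl (s18ddVal A E) E v₂ = s18vIncl (s18ddVal A E) E v₁
    rw [hv₁x, hv₂x]; exact hy

end Main

end Fermat.Agent.DS
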